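/-
S55 sprint, block (I) (helper8): modules coinduced from the trivial subgroup are acyclic.

If `M : Rep k Γ` admits a `k`-linear equivalence `e : M ≃ (Γ → M₀)` turning the action of `g`
into right translation (`e (g m) x = e m (x g)`), then `Hⁿ(Γ, M) = 0` for all `n ≥ 1`
(Mathlib's Shapiro lemma for the trivial subgroup).
-/
import Mathlib

set_option autoImplicit false

namespace Fermat.Agent.S55lib.TateCoh

open groupCohomology CategoryTheory

variable {k Γ : Type} [CommRing k] [Group Γ]

/-- `M` is coinduced from the trivial subgroup, with fibre `M₀`. -/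
structure CoindTriv (M : Rep k Γ) (M₀ : Type) [AddCommGroup M₀] [Module k M₀] where
  /-- the identification with functions on `Γ` -/
  e : M ≃ₗ[k] (Γ → M₀)
  /-- the action is right translation -/
  comm : ∀ (g : Γ) (m : M) (x : Γ), e (M.ρ g m) x = e m (x * g)

namespace CoindTriv

variable {M : Rep k Γ} {M₀ : Type} [AddCommGroup M₀] [Module k M₀] (d : CoindTriv M M₀)

/-- The coinduced module `Coind_1^Γ M₀` of Mathlib. -/
noncomputable abbrev model (Γ : Type) [Group Γ] (k : Type) [CommRing k]
    (M₀ : Type) [AddCommGroup M₀] [Module k M₀] : Rep k Γ :=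
  Rep.coind (⊥ : Subgroup Γ).subtype (Rep.trivial k ↥(⊥ : Subgroup Γ) M₀)

/-- The linear equivalence with Mathlib's coinduced module. -/
noncomputable def toModel : M ≃ₗ[k] (model Γ k M₀) where
  toFun m := ⟨d.e m, fun s x => by
    have hs : (s : Γ) = 1 := Subgroup.mem_bot.1 s.2
    simp [hs]⟩
  map_add' a b := by
    apply Subtype.ext
    simp
  map_smul' c a := by
    apply Subtype.ext
    simp
  invFun f := d.e.symm f.1
  left_inv m := by simp
  right_inv f := by
    apply Subtype.ext
    simp

lemma toModel_apply (m : M) (x : Γ) : (d.toModel m).1 x = d.e m x := rfl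

/-- The isomorphism in `Rep k Γ` with Mathlib's coinduced module. -/
noncomputable def iso : M ≅ model Γ k M₀ :=
  Rep.mkIso (ρ := M.ρ) (Representation.Equiv.mk d.toModel (fun g => by
    apply LinearMap.ext
    intro m
    apply Subtype.ext
    funext x
    simp only [LinearMap.coe_comp, LinearEquiv.coe_coe, Function.comp_apply]
    rw [toModel_apply, d.comm]
    rfl))

/-- Modules coinduced from the trivial subgroup have no higher cohomology. -/
theorem isZero_groupCohomology_succ {M : Rep k Γ} {M₀ : Type} [AddCommGroup M₀] [Module k M₀]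
    (d : CoindTriv M M₀) (n : ℕ) : Limits.IsZero (groupCohomology M (n + 1)) := by
  have h1 : Limits.IsZero (groupCohomology (model Γ k M₀) (n + 1)) :=
    (isZero_groupCohomology_succ_of_subsingleton
      (Rep.trivial k ↥(⊥ : Subgroup Γ) M₀) n).of_iso (coindIso _ (n + 1))
  exact h1.of_iso ((functor k Γ (n + 1)).mapIso d.iso)

end CoindTriv

end Fermat.Agent.S55lib.TateCoh
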