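/-
S55 sprint, block (I) (helper8): the coinduced module `Fun(Γ, A₀)` (right translation), its
restriction to subgroups, its invariants under normal subgroups, and the canonical embedding
`A → Fun(Γ, A)`, `a ↦ (x ↦ x a)`.  All of them are acyclic (`CoindTriv`).
-/
import Mathlib
import Fermat.Agent.S55lib.TateCoh.Acyclic

set_option autoImplicit false

namespace Fermat.Agent.S55lib.TateCoh

open groupCohomology CategoryTheory

variable {k Γ : Type} [CommRing k] [Group Γ]

/-- The representation of `Γ` on functions `Γ → A₀` by right translation. -/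
def funRepresentation (k Γ : Type) [CommRing k] [Group Γ] (A₀ : Type) [AddCommGroup A₀]
    [Module k A₀] : Representation k Γ (Γ → A₀) where
  toFun g := LinearMap.funLeft k A₀ (· * g)
  map_one' := by
    apply LinearMap.ext; intro F; funext x
    simp [LinearMap.funLeft_apply]
  map_mul' g h := by
    apply LinearMap.ext; intro F; funext x
    simp [LinearMap.funLeft_apply, mul_assoc]

lemma funRepresentation_apply (A₀ : Type) [AddCommGroup A₀] [Module k A₀] (g : Γ) (F : Γ → A₀)
    (x : Γ) : funRepresentation k Γ A₀ g F x = F (x * g) := rfl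

/-- `Fun(Γ, A₀)` as an object of `Rep k Γ`. -/
noncomputable abbrev funRep (k Γ : Type) [CommRing k] [Group Γ] (A₀ : Type) [AddCommGroup A₀]
    [Module k A₀] : Rep k Γ := Rep.of (funRepresentation k Γ A₀)

lemma funRep_ρ_apply (A₀ : Type) [AddCommGroup A₀] [Module k A₀] (g : Γ) (F : Γ → A₀) (x : Γ) :
    (funRep k Γ A₀).ρ g F x = F (x * g) := rfl

/-- `Fun(Γ, A₀)` is coinduced from the trivial subgroup. -/
noncomputable def funRepCoindTriv (A₀ : Type) [AddCommGroup A₀] [Module k A₀] :
    CoindTriv (funRep k Γ A₀) A₀ where
  e := LinearEquiv.refl k (Γ → A₀)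
  comm _ _ _ := rfl

section Restriction

variable {K : Type} [Group K] (f : K →* Γ) (A₀ : Type) [AddCommGroup A₀] [Module k A₀]

lemma out_inv_mul_mem_range (x : Γ) :
    (Quotient.out (QuotientGroup.mk x : Γ ⧸ f.range))⁻¹ * x ∈ f.range := by
  rw [← QuotientGroup.eq]
  exact Quotient.out_eq _

/-- the `K`-component of `x` with respect to the representatives `Quotient.out` of
`Γ ⧸ f.range`. -/
noncomputable def kPart (x : Γ) : K := (out_inv_mul_mem_range f x).choose

lemma out_mul_kPart (x : Γ) :
    Quotient.out (QuotientGroup.mk x : Γ ⧸ f.range) * f (kPart f x) = x := by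
  rw [kPart, (out_inv_mul_mem_range f x).choose_spec]
  group

lemma mk_out_mul (q : Γ ⧸ f.range) (κ : K) :
    (QuotientGroup.mk (Quotient.out q * f κ) : Γ ⧸ f.range) = q := by
  rw [QuotientGroup.mk_mul_of_mem _ (MonoidHom.mem_range.2 ⟨κ, rfl⟩)]
  exact Quotient.out_eq q

lemma kPart_out_mul (hf : Function.Injective f) (q : Γ ⧸ f.range) (κ : K) :
    kPart f (Quotient.out q * f κ) = κ := by
  apply hf
  have h := out_mul_kPart f (Quotient.out q * f κ)
  rw [mk_out_mul] at h
  exact mul_left_cancel h

/-- The restriction of `Fun(Γ, A₀)` along an injective homomorphism `f : K → Γ` is coinduced from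
the trivial subgroup of `K`, with fibre `Fun(Γ ⧸ f(K), A₀)`. -/
noncomputable def funRepResCoindTriv (hf : Function.Injective f) :
    CoindTriv (Rep.res f (funRep k Γ A₀)) ((Γ ⧸ f.range) → A₀) where
  e :=
    { toFun := fun F κ q => F (Quotient.out q * f κ)
      map_add' := fun _ _ => rfl
      map_smul' := fun _ _ => rfl
      invFun := fun Φ x => Φ (kPart f x) (QuotientGroup.mk x)
      left_inv := fun F => by
        funext x
        show F (Quotient.out (QuotientGroup.mk x : Γ ⧸ f.range) * f (kPart f x)) = F x
        rw [out_mul_kPart]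
      right_inv := fun Φ => by
        funext κ q
        show Φ (kPart f (Quotient.out q * f κ)) (QuotientGroup.mk (Quotient.out q * f κ))
          = Φ κ q
        rw [kPart_out_mul f hf, mk_out_mul] }
  comm g F x := by
    funext q
    show F (Quotient.out q * f x * f g) = F (Quotient.out q * f (x * g))
    rw [map_mul, mul_assoc]

end Restriction

section Invariants

variable (H : Subgroup Γ) [H.Normal] (A₀ : Type) [AddCommGroup A₀] [Module k A₀]

lemma funRep_invariant_apply_eq (F : (funRep k Γ A₀).quotientToInvariants H) {x y : Γ}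
    (hxy : (QuotientGroup.mk x : Γ ⧸ H) = QuotientGroup.mk y) : F.1 x = F.1 y := by
  have hmem : x⁻¹ * y ∈ H := QuotientGroup.eq.1 hxy
  have := F.2 ⟨x⁻¹ * y, hmem⟩
  have h2 : F.1 (x * (x⁻¹ * y)) = F.1 x := congrFun this x
  rw [← h2, mul_inv_cancel_left]

/-- The `H`-invariants of `Fun(Γ, A₀)` (`H` normal) are coinduced from the trivial subgroup of
`Γ ⧸ H`, with fibre `A₀`. -/
noncomputable def funRepInvariantsCoindTriv :
    CoindTriv ((funRep k Γ A₀).quotientToInvariants H) A₀ where
  e :=
    { toFun := fun F q => F.1 (Quotient.out q)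
      map_add' := fun _ _ => rfl
      map_smul' := fun _ _ => rfl
      invFun := fun Φ => ⟨fun x => Φ (QuotientGroup.mk x), fun h => by
        funext x
        show Φ (QuotientGroup.mk (x * (h : Γ))) = Φ (QuotientGroup.mk x)
        rw [QuotientGroup.mk_mul_of_mem _ h.2]⟩
      left_inv := fun F => by
        apply Subtype.ext
        funext x
        show F.1 (Quotient.out (QuotientGroup.mk x : Γ ⧸ H)) = F.1 x
        exact funRep_invariant_apply_eq H A₀ F (Quotient.out_eq _)
      right_inv := fun Φ => by
        funext q
        show Φ (QuotientGroup.mk (Quotient.out q)) = Φ q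
        rw [show (QuotientGroup.mk (Quotient.out q) : Γ ⧸ H) = q from Quotient.out_eq q] }
  comm g F x := by
    induction g using QuotientGroup.induction_on with
    | H g =>
      show F.1 (Quotient.out x * g) = F.1 (Quotient.out (x * QuotientGroup.mk g))
      apply funRep_invariant_apply_eq H A₀ F
      rw [QuotientGroup.mk_mul]
      rw [show (QuotientGroup.mk (Quotient.out x) : Γ ⧸ H) = x from Quotient.out_eq x,
        show (QuotientGroup.mk (Quotient.out (x * QuotientGroup.mk g)) : Γ ⧸ H) =
          x * QuotientGroup.mk g from Quotient.out_eq _]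

end Invariants

end Fermat.Agent.S55lib.TateCoh
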