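/-
S55 sprint, block (I) (helper8): dimension shifting.  For `X : Rep k Γ` the short exact sequence
`0 → X → Fun(Γ, X) → shiftRep X → 0` and the resulting comparison of vanishing of cohomology,
for every group `K` with an injective homomorphism to `Γ`, and for invariants under a normal
subgroup.
-/
import Mathlib
import Fermat.Agent.S55lib.TateCoh.CoindFun

set_option autoImplicit false

namespace Fermat.Agent.S55lib.TateCoh

open groupCohomology CategoryTheory Limits

variable {k Γ : Type} [CommRing k] [Group Γ] (X : Rep k Γ)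

/-- The canonical embedding `X → Fun(Γ, X)`, `x ↦ (g ↦ g x)`, as a linear map. -/
def coindEmbLinear : X →ₗ[k] (Γ → X) where
  toFun x g := X.ρ g x
  map_add' x y := by funext g; simp
  map_smul' c x := by funext g; simp

lemma coindEmbLinear_apply (x : X) (g : Γ) : coindEmbLinear X x g = X.ρ g x := rfl

/-- The canonical embedding `X → Fun(Γ, X)` in `Rep k Γ`. -/
noncomputable def coindEmb : X ⟶ funRep k Γ X :=
  Rep.ofHom (ρ := X.ρ) ⟨coindEmbLinear X, fun g => by
    apply LinearMap.ext
    intro x
    funext y
    simp only [LinearMap.coe_comp, Function.comp_apply]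
    rw [funRepresentation_apply, coindEmbLinear_apply, coindEmbLinear_apply, map_mul]
    rfl⟩

lemma coindEmb_hom_apply (x : X) (g : Γ) : (coindEmb X).hom x g = X.ρ g x := rfl

lemma coindEmb_injective : Function.Injective (coindEmb X).hom := by
  intro x y h
  have := congrFun h 1
  rw [coindEmb_hom_apply, coindEmb_hom_apply, map_one] at this
  exact this

/-- The image of `X` in `Fun(Γ, X)`. -/
def coindRange : Submodule k (Γ → X) := LinearMap.range (coindEmbLinear X)

lemma coindRange_le_comap (g : Γ) :
    coindRange X ≤ (coindRange X).comap ((funRep k Γ X).ρ g) := by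
  rintro _ ⟨x, rfl⟩
  refine ⟨X.ρ g x, ?_⟩
  funext y
  show X.ρ y (X.ρ g x) = X.ρ (y * g) x
  rw [map_mul]; rfl

/-- The shifted module `Fun(Γ, X) / X`. -/
noncomputable def shiftRep : Rep k Γ := (funRep k Γ X).quotient (coindRange X) (coindRange_le_comap X)

/-- The projection `Fun(Γ, X) → shiftRep X`. -/
noncomputable def coindProj : funRep k Γ X ⟶ shiftRep X :=
  (funRep k Γ X).mkQ (coindRange X) (coindRange_le_comap X)

lemma coindProj_surjective : Function.Surjective (coindProj X).hom :=
  Submodule.mkQ_surjective _

lemma coindProj_hom_eq_zero_iff (F : Γ → X) : (coindProj X).hom F = 0 ↔ F ∈ coindRange X :=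
  Submodule.Quotient.mk_eq_zero _

lemma coindEmb_comp_coindProj : coindEmb X ≫ coindProj X = 0 := by
  apply Rep.hom_ext
  apply Representation.IntertwiningMap.ext
  apply LinearMap.ext
  intro x
  show (coindProj X).hom ((coindEmb X).hom x) = 0
  rw [coindProj_hom_eq_zero_iff]
  exact ⟨x, rfl⟩

/-- The dimension shifting sequence `X → Fun(Γ, X) → shiftRep X`. -/
noncomputable def shiftSeq : ShortComplex (Rep k Γ) :=
  ShortComplex.mk (coindEmb X) (coindProj X) (coindEmb_comp_coindProj X)

lemma shiftSeq_shortExact : (shiftSeq X).ShortExact where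
  exact := by
    apply (forget₂ (Rep k Γ) (ModuleCat k)).reflects_exact_of_faithful
    rw [ShortComplex.moduleCat_exact_iff_range_eq_ker]
    apply le_antisymm
    · rintro _ ⟨x, rfl⟩
      show (coindProj X).hom ((coindEmb X).hom x) = 0
      rw [coindProj_hom_eq_zero_iff]
      exact ⟨x, rfl⟩
    · intro F hF
      have hF' : (coindProj X).hom (show Γ → X from F) = 0 := hF
      have hF'' := (coindProj_hom_eq_zero_iff X (show Γ → X from F)).1 hF'
      obtain ⟨x, hx⟩ := hF''
      exact ⟨x, hx⟩
  mono_f := (Rep.mono_iff_injective _).2 (coindEmb_injective X)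
  epi_g := (Rep.epi_iff_surjective _).2 (coindProj_surjective X)

section Restriction

variable {K : Type} [Group K] (f : K →* Γ)

/-- The shifting sequence restricted along `f`. -/
noncomputable abbrev shiftSeqRes : ShortComplex (Rep k K) := (shiftSeq X).map (Rep.resFunctor f)

lemma shiftSeqRes_shortExact : (shiftSeqRes X f).ShortExact :=
  (Rep.shortExact_res f).2 (shiftSeq_shortExact X)

/-- The connecting map `Hⁿ(K, shiftRep X) → Hⁿ⁺¹(K, X)` is an isomorphism for `n ≥ 1`, for every
`K` with an injective homomorphism to `Γ`. -/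
lemma isIso_δ_shiftSeqRes (hf : Function.Injective f) (n : ℕ) :
    IsIso (δ (shiftSeqRes_shortExact X f) (n + 1) (n + 2) rfl) :=
  isIso_δ_of_isZero (shiftSeqRes_shortExact X f) (n + 1)
    ((funRepResCoindTriv f X hf).isZero_groupCohomology_succ n)
    ((funRepResCoindTriv f X hf).isZero_groupCohomology_succ (n + 1))

/-- `Hⁿ⁺²(K, X) = 0 ↔ Hⁿ⁺¹(K, shiftRep X) = 0`. -/
lemma isZero_shift_iff (hf : Function.Injective f) (n : ℕ) :
    IsZero (groupCohomology (Rep.res f (shiftRep X)) (n + 1)) ↔
      IsZero (groupCohomology (Rep.res f X) (n + 2)) := by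
  have := isIso_δ_shiftSeqRes X f hf n
  exact (asIso (δ (shiftSeqRes_shortExact X f) (n + 1) (n + 2) rfl)).isZero_iff

end Restriction

section Invariants

variable (H : Subgroup Γ) [H.Normal]

instance quotientToInvariantsFunctor_preservesZeroMorphisms :
    (Rep.quotientToInvariantsFunctor k H).PreservesZeroMorphisms where
  map_zero A B := by
    apply Rep.hom_ext
    apply Representation.IntertwiningMap.ext
    apply LinearMap.ext
    intro x
    apply Subtype.ext
    rfl

/-- The shifting sequence on `H`-invariants, as representations of `Γ ⧸ H`. -/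
noncomputable abbrev shiftSeqInv : ShortComplex (Rep k (Γ ⧸ H)) :=
  (shiftSeq X).map (Rep.quotientToInvariantsFunctor k H)

lemma qinv_map_apply_coe {A B : Rep k Γ} (φ : A ⟶ B) (a : A.quotientToInvariants H) :
    (((Rep.quotientToInvariantsFunctor k H).map φ).hom a).1 = φ.hom a.1 := rfl

/-- If `H¹(H, X) = 0`, taking `H`-invariants keeps the shifting sequence short exact. -/
lemma shiftSeqInv_shortExact (h1 : IsZero (H1 (Rep.res H.subtype X))) :
    (shiftSeqInv X H).ShortExact where
  exact := by
    apply (forget₂ (Rep k (Γ ⧸ H)) (ModuleCat k)).reflects_exact_of_faithful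
    rw [ShortComplex.moduleCat_exact_iff_range_eq_ker]
    apply le_antisymm
    · rintro _ ⟨x, rfl⟩
      have hx : ((Rep.quotientToInvariantsFunctor k H).map (coindProj X)).hom
          (((Rep.quotientToInvariantsFunctor k H).map (coindEmb X)).hom x) = 0 := by
        apply Subtype.ext
        show (coindProj X).hom ((coindEmb X).hom (show X.quotientToInvariants H from x).1) = 0
        rw [coindProj_hom_eq_zero_iff]
        exact ⟨_, rfl⟩
      exact hx
    · intro F hF
      have hF0 : ((Rep.quotientToInvariantsFunctor k H).map (coindProj X)).hom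
          (show (funRep k Γ X).quotientToInvariants H from F) = 0 := hF
      have hF' : (coindProj X).hom (show (funRep k Γ X).quotientToInvariants H from F).1 = 0 := by
        rw [← qinv_map_apply_coe, hF0]; rfl
      obtain ⟨x, hx⟩ := (coindProj_hom_eq_zero_iff X _).1 hF'
      have hxinv : ∀ h : H, X.ρ h x = x := by
        intro h
        apply coindEmb_injective X
        have h2 := (show (funRep k Γ X).quotientToInvariants H from F).2 h
        have h3 : (coindEmb X).hom (X.ρ h x) = (funRep k Γ X).ρ h ((coindEmb X).hom x) :=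
          Rep.hom_comm_apply (coindEmb X) h x
        rw [h3]
        show (funRep k Γ X).ρ h (coindEmbLinear X x) = coindEmbLinear X x
        rw [hx]
        exact h2
      refine ⟨(⟨x, hxinv⟩ : X.quotientToInvariants H), ?_⟩
      apply Subtype.ext
      exact hx
  mono_f := by
    rw [Rep.mono_iff_injective]
    intro x y hxy
    apply Subtype.ext
    apply coindEmb_injective X
    have := congrArg Subtype.val hxy
    exact this
  epi_g := by
    rw [Rep.epi_iff_surjective]
    intro y
    obtain ⟨F, hF⟩ := coindProj_surjective X y.1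
    -- the cocycle `h ↦ hF - F`, with values in `X`
    have hmem : ∀ h : H, (funRep k Γ X).ρ h F - F ∈ coindRange X := by
      intro h
      rw [← coindProj_hom_eq_zero_iff, map_sub, Rep.hom_comm_apply, hF]
      have := y.2 h
      exact sub_eq_zero.2 this
    choose c hc using hmem
    have hcoc : c ∈ cocycles₁ (Rep.res H.subtype X) := by
      rw [mem_cocycles₁_iff]
      intro g h
      apply coindEmb_injective X
      show coindEmbLinear X (c (g * h)) = coindEmbLinear X ((X.ρ g) (c h) + c g)
      rw [map_add, hc, hc]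
      have h3 : coindEmbLinear X (X.ρ g (c h)) = (funRep k Γ X).ρ g (coindEmbLinear X (c h)) :=
        Rep.hom_comm_apply (coindEmb X) (g : Γ) (c h)
      rw [h3, hc, map_sub, Subgroup.coe_mul, map_mul]
      show (funRep k Γ X).ρ g ((funRep k Γ X).ρ h F) - F = _
      abel
    have hsub := ModuleCat.subsingleton_of_isZero h1
    have hz : H1π (Rep.res H.subtype X) ⟨c, hcoc⟩ = 0 := Subsingleton.elim _ _
    rw [H1π_eq_zero_iff] at hz
    obtain ⟨x, hx⟩ := hz
    have hx' : ∀ h : H, X.ρ h x - x = c h := fun h => by
      have := congrFun hx h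
      rw [d₀₁_hom_apply] at this
      exact this
    have hinv : ∀ h : H, (funRep k Γ X).ρ h (F - coindEmbLinear X x) = F - coindEmbLinear X x := by
      intro h
      have h3 : coindEmbLinear X (X.ρ h x) = (funRep k Γ X).ρ h (coindEmbLinear X x) :=
        Rep.hom_comm_apply (coindEmb X) (h : Γ) x
      rw [map_sub, ← h3]
      have h4 := hc h
      rw [← hx' h, map_sub] at h4
      rw [sub_eq_sub_iff_add_eq_add]
      rw [sub_eq_sub_iff_add_eq_add] at h4
      rw [add_comm F]
      exact h4.symm
    refine ⟨(⟨F - coindEmbLinear X x, hinv⟩ : (funRep k Γ X).quotientToInvariants H), ?_⟩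
    apply Subtype.ext
    show (coindProj X).hom (F - coindEmbLinear X x) = y.1
    rw [map_sub, hF]
    have : (coindProj X).hom (coindEmbLinear X x) = 0 :=
      (coindProj_hom_eq_zero_iff X _).2 ⟨x, rfl⟩
    rw [this]
    exact sub_zero _

/-- If `H¹(H, X) = 0` then `Hⁿ⁺¹(Γ/H, (shiftRep X)^H) = 0 ↔ Hⁿ⁺²(Γ/H, X^H) = 0`. -/
lemma isZero_shift_inv_iff (h1 : IsZero (H1 (Rep.res H.subtype X))) (n : ℕ) :
    IsZero (groupCohomology ((shiftRep X).quotientToInvariants H) (n + 1)) ↔
      IsZero (groupCohomology (X.quotientToInvariants H) (n + 2)) := by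
  have hS := shiftSeqInv_shortExact X H h1
  have : IsIso (δ hS (n + 1) (n + 2) rfl) :=
    isIso_δ_of_isZero hS (n + 1)
      ((funRepInvariantsCoindTriv H X).isZero_groupCohomology_succ n)
      ((funRepInvariantsCoindTriv H X).isZero_groupCohomology_succ (n + 1))
  exact (asIso (δ hS (n + 1) (n + 2) rfl)).isZero_iff

end Invariants

end Fermat.Agent.S55lib.TateCoh
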