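/-
S55 sprint, block (I) (helper8): the Nakayama–Tate criterion in the degree needed for class
formations.  If `Γ` is a finite `p`-group and `X : Rep k Γ` has `H¹(K, X) = H²(K, X) = 0` for
every subgroup `K` (formulated for every group with an injective homomorphism to `Γ`), then
`H³(Γ, X) = 0`.
Proof: induction on `|Γ|` with a normal subgroup `H` of index `p`; two dimension shifts
`Y = Fun(Γ,X)/X`, `Z = Fun(Γ,Y)/Y`, Mathlib's inflation–restriction in degree 1 for `Z`, and the
periodicity of the cohomology of the cyclic group `Γ/H`.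
-/
import Mathlib
import Fermat.Agent.S55lib.TateCoh.Shift

set_option autoImplicit false
set_option linter.style.haveILetI false

namespace Fermat.Agent.S55lib.TateCoh

open groupCohomology CategoryTheory Limits

variable {k : Type} [CommRing k]

/-- `X` has vanishing `H¹` and `H²` on every group mapping injectively to `Γ`
(i.e. on every subgroup). -/
def LowAcyclic {Γ : Type} [Group Γ] (X : Rep k Γ) : Prop :=
  ∀ (K : Type) [Group K] (f : K →* Γ), Function.Injective f →
    IsZero (H1 (Rep.res f X)) ∧ IsZero (H2 (Rep.res f X))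

lemma LowAcyclic.res {Γ : Type} [Group Γ] {X : Rep k Γ} (hX : LowAcyclic X) {K : Type} [Group K]
    (f : K →* Γ) (hf : Function.Injective f) : LowAcyclic (Rep.res f X) :=
  fun L _ g hg => hX L (f.comp g) (hf.comp hg)

/-- A nontrivial finite `p`-group has a normal subgroup of index `p`. -/
lemma exists_normal_index_eq_prime {p : ℕ} [Fact p.Prime] {Γ : Type} [Group Γ] [Finite Γ]
    (hΓ : IsPGroup p Γ) (hnt : 1 < Nat.card Γ) :
    ∃ H : Subgroup Γ, H.Normal ∧ H.index = p := by
  obtain ⟨n, hn⟩ := IsPGroup.iff_card.1 hΓ
  have hp : p.Prime := Fact.out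
  have hn0 : n ≠ 0 := by
    rintro rfl
    rw [pow_zero] at hn
    omega
  obtain ⟨m, rfl⟩ : ∃ m, n = m + 1 := ⟨n - 1, by omega⟩
  obtain ⟨K, hK⟩ := Sylow.exists_subgroup_card_pow_prime (G := Γ) p (n := m)
    (by rw [hn]; exact pow_dvd_pow p (Nat.le_succ m))
  have hidx : K.index = p := by
    have h := K.card_mul_index
    rw [hK, hn, pow_succ] at h
    exact Nat.eq_of_mul_eq_mul_left (pow_pos hp.pos m) h
  refine ⟨K, ?_, hidx⟩
  apply Subgroup.normal_of_index_eq_minFac_card
  rw [hidx, hn, Nat.Prime.pow_minFac hp (Nat.succ_ne_zero m)]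

/-- For a cyclic group, `H³ ≅ H¹`; we only record the vanishing statement. -/
lemma isZero_H3_of_isZero_H1_of_isCyclic {Q : Type} [Group Q] [Finite Q] [IsCyclic Q]
    (A : Rep k Q) (h : IsZero (groupCohomology A 1)) : IsZero (groupCohomology A 3) := by
  classical
  letI : CommGroup Q := IsCyclic.commGroup
  letI : Fintype Q := Fintype.ofFinite Q
  obtain ⟨g, hg⟩ := IsCyclic.exists_generator (α := Q)
  have e1 := Rep.FiniteCyclicGroup.groupCohomologyIsoOdd A g hg 1 (by decide)
  have e3 := Rep.FiniteCyclicGroup.groupCohomologyIsoOdd A g hg 3 (by decide)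
  exact (h.of_iso e1.symm).of_iso e3

/-- **Nakayama–Tate, degree 3.** -/
theorem isZero_H3_of_lowAcyclic {p : ℕ} [Fact p.Prime] :
    ∀ (n : ℕ) (Γ : Type) [Group Γ] [Finite Γ], Nat.card Γ = n → IsPGroup p Γ →
      ∀ X : Rep k Γ, LowAcyclic X → IsZero (groupCohomology X 3) := by
  intro n
  induction n using Nat.strong_induction_on with
  | _ n ih =>
    intro Γ _ _ hcard hΓ X hX
    rcases Nat.lt_or_ge 1 (Nat.card Γ) with hnt | hnt
    · obtain ⟨H, hHn, hHidx⟩ := exists_normal_index_eq_prime hΓ hnt
      have hp : p.Prime := Fact.out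
      haveI : H.Normal := hHn
      -- the subgroup `H` is smaller
      have hHcard : Nat.card H < n := by
        have h := H.card_mul_index
        rw [hHidx, hcard] at h
        have hpos : 0 < Nat.card H := Nat.card_pos
        have := hp.one_lt
        nlinarith
      -- the quotient is cyclic of order `p`
      have hQcard : Nat.card (Γ ⧸ H) = p := by rw [← Subgroup.index_eq_card, hHidx]
      haveI : IsCyclic (Γ ⧸ H) := isCyclic_of_prime_card hQcard
      haveI : Finite (Γ ⧸ H) := Nat.finite_of_card_ne_zero (by rw [hQcard]; exact hp.ne_zero)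
      have hinj : Function.Injective H.subtype := Subgroup.subtype_injective H
      have hid : Function.Injective (MonoidHom.id Γ) := fun _ _ h => h
      -- induction hypothesis on `H`
      have hH3 : IsZero (groupCohomology (Rep.res H.subtype X) 3) :=
        ih (Nat.card H) hHcard H rfl (hΓ.to_subgroup H) (Rep.res H.subtype X) (hX.res _ hinj)
      set Y := shiftRep X with hY
      set Z := shiftRep Y with hZ
      -- vanishing on `H`
      have a1 : IsZero (groupCohomology (Rep.res H.subtype Y) 2) :=
        (isZero_shift_iff X H.subtype hinj 1).2 hH3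
      have a2 : IsZero (groupCohomology (Rep.res H.subtype Z) 1) :=
        (isZero_shift_iff Y H.subtype hinj 0).2 a1
      have b0 : IsZero (groupCohomology (Rep.res H.subtype Y) 1) :=
        (isZero_shift_iff X H.subtype hinj 0).2 (hX H H.subtype hinj).2
      -- vanishing on `Γ ⧸ H`
      have c1 : IsZero (groupCohomology (X.quotientToInvariants H) 1) := by
        have hz : IsZero (H1InfRes X H).X₂ := (hX Γ (MonoidHom.id Γ) hid).1
        have hz1 : IsZero (H1InfRes X H).X₁ := IsZero.of_mono (H1InfRes X H).f hz
        exact hz1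
      have d3 : IsZero (groupCohomology (X.quotientToInvariants H) 3) :=
        isZero_H3_of_isZero_H1_of_isCyclic _ c1
      have e2 : IsZero (groupCohomology (Y.quotientToInvariants H) 2) :=
        (isZero_shift_inv_iff X H (hX H H.subtype hinj).1 1).2 d3
      have f1 : IsZero (groupCohomology (Z.quotientToInvariants H) 1) :=
        (isZero_shift_inv_iff Y H b0 0).2 e2
      -- inflation–restriction for `Z`
      have g1 : IsZero (groupCohomology Z 1) :=
        (H1InfRes_exact Z H).isZero_of_both_isZero f1 a2
      have h2 : IsZero (groupCohomology Y 2) :=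
        (isZero_shift_iff Y (MonoidHom.id Γ) hid 0).1 g1
      exact (isZero_shift_iff X (MonoidHom.id Γ) hid 1).1 h2
    · have hsub : Subsingleton Γ := by
        have : Nat.card Γ = 1 := le_antisymm hnt Nat.card_pos
        exact (Nat.card_eq_one_iff_unique.1 this).1
      exact isZero_groupCohomology_succ_of_subsingleton X 2

end Fermat.Agent.S55lib.TateCoh
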