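/-
S55 sprint, block (I) (helper8): class modules with a fundamental cocycle.  If `u` is a fundamental
`2`-cocycle of `C` (on every group `K` mapping injectively to the finite group `Γ`: `H¹(K, C) = 0`,
`H²(K, C)` is generated by the restriction of `[u]`, and that restriction has exact order `|K|`),
then Tate's splitting module `X(u)` has `H¹(K, X) = H²(K, X) = 0` for all such `K`; consequently, for
a `p`-group `Γ`, `H³(Γ, X(u)) = 0` (Nakayama–Tate) and hence `H³(Γ, C) = 0`.
-/
import Mathlib
import Fermat.Agent.S55lib.TateCoh.Splitting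
import Fermat.Agent.S55lib.TateCoh.NakayamaTate

set_option autoImplicit false
set_option linter.unusedSectionVars false
set_option linter.style.haveILetI false

namespace Fermat.Agent.S55lib.TateCoh

open groupCohomology CategoryTheory Limits

variable {k : Type} [CommRing k] {Γ : Type} [Group Γ] [Fintype Γ] (C : Rep.{0} k Γ)
  (u : cocycles₂ C)

/-- `u` is a fundamental `2`-cocycle of the class module `C`. -/
structure IsFundamental : Prop where
  /-- `H¹(K, C) = 0` -/
  h1 : ∀ (K : Type) [Group K] (f : K →* Γ), Function.Injective f → IsZero (H1 (Rep.res f C))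
  /-- `H²(K, C)` is generated by the restriction of `[u]` -/
  gen : ∀ (K : Type) [Group K] (f : K →* Γ), Function.Injective f →
    ∀ x : H2 (Rep.res f C), ∃ c : k, x = c • H2π _ (resCocycle₂ C u f)
  /-- the restriction of `[u]` has exact order `|K|` -/
  ord : ∀ (K : Type) [Group K] (f : K →* Γ), Function.Injective f →
    ∀ c : k, c • H2π _ (resCocycle₂ C u f) = 0 → ∃ c' : k, c = c' * (Nat.card K : k)

variable {C u}

/-- The splitting module of a fundamental cocycle has vanishing `H¹` and `H²` on every subgroup. -/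
theorem IsFundamental.lowAcyclic (h : IsFundamental C u)
    (htf : ∀ (n : ℕ) (a : k), n ≠ 0 → n • a = 0 → a = 0) : LowAcyclic (splitRep C u) := by
  intro K _ f hf
  haveI : Finite K := Finite.of_injective f hf
  letI : Fintype K := Fintype.ofFinite K
  have hS := splitSeqRes_shortExact C u f
  -- the maps of the long exact sequence, as linear maps between concrete types
  let iH1 : H1 (Rep.res f C) →ₗ[k] H1 (Rep.res f (splitRep C u)) :=
    (map (MonoidHom.id K) (splitSeqRes C u f).f 1).hom
  let pH1 : H1 (Rep.res f (splitRep C u)) →ₗ[k] H1 (Rep.res f (augRep k Γ)) :=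
    (map (MonoidHom.id K) (splitSeqRes C u f).g 1).hom
  let d1 : H1 (Rep.res f (augRep k Γ)) →ₗ[k] H2 (Rep.res f C) := (δ hS 1 2 rfl).hom
  let iH2 : H2 (Rep.res f C) →ₗ[k] H2 (Rep.res f (splitRep C u)) :=
    (map (MonoidHom.id K) (splitSeqRes C u f).f 2).hom
  let pH2 : H2 (Rep.res f (splitRep C u)) →ₗ[k] H2 (Rep.res f (augRep k Γ)) :=
    (map (MonoidHom.id K) (splitSeqRes C u f).g 2).hom
  have ex_a : ∀ x, pH1 x = 0 → ∃ w, iH1 w = x :=
    (ShortComplex.moduleCat_exact_iff _).1 (mapShortComplex₂_exact hS 1)
  have zero_b : ∀ x, d1 (pH1 x) = 0 :=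
    (mapShortComplex₃ hS (i := 1) (j := 2) rfl).moduleCat_zero_apply
  have zero_c : ∀ y, iH2 (d1 y) = 0 :=
    (mapShortComplex₁ hS (i := 1) (j := 2) rfl).moduleCat_zero_apply
  have ex_d : ∀ x, pH2 x = 0 → ∃ w, iH2 w = x :=
    (ShortComplex.moduleCat_exact_iff _).1 (mapShortComplex₂_exact hS 2)
  have hδ : d1 (H1π _ (epsCocycle (k := k) f)) = H2π _ (resCocycle₂ C u f) := δ_epsCocycle C u f
  have hcard : (Fintype.card K : k) • H1π _ (epsCocycle (k := k) f) = 0 := card_smul_epsCocycle f
  constructor
  · -- `H¹(K, X) = 0`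
    haveI : Subsingleton (H1 (Rep.res f (splitRep C u))) := by
      refine subsingleton_of_forall_eq 0 fun x => ?_
      obtain ⟨c, hc⟩ := exists_eq_smul_epsCocycle f hf (pH1 x)
      have h0 : d1 (pH1 x) = 0 := zero_b x
      rw [hc, map_smul, hδ] at h0
      obtain ⟨c', rfl⟩ := h.ord K f hf c h0
      have hy : pH1 x = 0 := by
        rw [hc, mul_smul, Nat.card_eq_fintype_card, hcard, smul_zero]
      obtain ⟨w, hw⟩ := ex_a x hy
      have hw0 : w = 0 := by
        haveI := ModuleCat.subsingleton_of_isZero (h.h1 K f hf)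
        exact Subsingleton.elim _ _
      rw [← hw, hw0, map_zero]
    exact ModuleCat.isZero_of_subsingleton _
  · -- `H²(K, X) = 0`
    haveI : Subsingleton (H2 (Rep.res f (splitRep C u))) := by
      refine subsingleton_of_forall_eq 0 fun x => ?_
      have hI : IsZero (H2 (Rep.res f (augRep k Γ))) := isZero_H2_augRep f hf htf
      have hy : pH2 x = 0 := by
        haveI := ModuleCat.subsingleton_of_isZero hI
        exact Subsingleton.elim _ _
      obtain ⟨w, hw⟩ := ex_d x hy
      obtain ⟨c, hc⟩ := h.gen K f hf w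
      have hw' : w = d1 (c • H1π _ (epsCocycle (k := k) f)) := by
        rw [map_smul, hδ, hc]
      rw [← hw, hw']
      exact zero_c _
    exact ModuleCat.isZero_of_subsingleton _

/-- Restriction of a fundamental cocycle along an injective homomorphism is fundamental. -/
theorem IsFundamental.res (h : IsFundamental C u) {K : Type} [Group K] [Fintype K] (f : K →* Γ)
    (hf : Function.Injective f) : IsFundamental (Rep.res f C) (resCocycle₂ C u f) where
  h1 L _ g hg := h.h1 L (f.comp g) (hf.comp hg)
  gen L _ g hg := h.gen L (f.comp g) (hf.comp hg)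
  ord L _ g hg := h.ord L (f.comp g) (hf.comp hg)

/-- **Tate's theorem, degree 3**: a class module with a fundamental cocycle over a finite `p`-group
has `H³(Γ, C) = 0`. -/
theorem IsFundamental.isZero_H3 (h : IsFundamental C u)
    (htf : ∀ (n : ℕ) (a : k), n ≠ 0 → n • a = 0 → a = 0) {p : ℕ} [Fact p.Prime]
    (hΓ : IsPGroup p Γ) : IsZero (groupCohomology C 3) := by
  have hX : IsZero (groupCohomology (splitRep C u) 3) :=
    isZero_H3_of_lowAcyclic (p := p) (Nat.card Γ) Γ rfl hΓ (splitRep C u) (h.lowAcyclic htf)
  have hS := splitSeq_shortExact C u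
  have hex := mapShortComplex₁_exact hS (i := 2) (j := 3) rfl
  have hI : IsZero (H2 (augRep k Γ)) :=
    isZero_H2_augRep (MonoidHom.id Γ) (fun _ _ h => h) htf
  exact hex.isZero_of_both_isZero hI hX

/-! ### The subgroup form of the hypotheses -/

section Subgroups

variable {K : Type} [Group K] (f : K →* Γ) (hf : Function.Injective f)

/-- transport of cohomology from `K` to the subgroup `f(K)` of `Γ` -/
noncomputable def rangeIso (n : ℕ) :
    groupCohomology (Rep.res f C) n ≅ groupCohomology (Rep.res f.range.subtype C) n :=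
  mapIso (MonoidHom.ofInjective hf) (LinearEquiv.refl k C) (fun g => by
    apply LinearMap.ext
    intro c
    rfl) n

lemma rangeIso_hom_H2π (z : cocycles₂ (Rep.res f C)) :
    (rangeIso (C := C) f hf 2).hom (H2π _ z) =
      H2π (Rep.res f.range.subtype C)
        (mapCocycles₂ (MonoidHom.ofInjective hf).symm.toMonoidHom
          (Rep.ofHom (ρ := (Rep.res (MonoidHom.ofInjective hf).symm.toMonoidHom (Rep.res f C)).ρ)
            (σ := (Rep.res f.range.subtype C).ρ)
            ⟨(LinearEquiv.refl k C).toLinearMap, fun h => by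
              apply LinearMap.ext
              intro c
              show C.ρ (f ((MonoidHom.ofInjective hf).symm h)) c = C.ρ (h : Γ) c
              have : f ((MonoidHom.ofInjective hf).symm h) = (h : Γ) := by
                have := (MonoidHom.ofInjective hf).apply_symm_apply h
                exact congrArg Subtype.val this
              rw [this]⟩) z) := by
  exact H2π_comp_map_apply _ _ z

lemma rangeIso_hom_resCocycle₂ :
    (rangeIso (C := C) f hf 2).hom (H2π _ (resCocycle₂ C u f)) =
      H2π _ (resCocycle₂ C u f.range.subtype) := by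
  rw [rangeIso_hom_H2π]
  congr 1
  apply cocycles₂_ext
  intro g h
  rw [coe_mapCocycles₂]
  show u (f ((MonoidHom.ofInjective hf).symm g), f ((MonoidHom.ofInjective hf).symm h)) =
    u ((g : Γ), (h : Γ))
  have e : ∀ x : f.range, f ((MonoidHom.ofInjective hf).symm x) = (x : Γ) := fun x =>
    congrArg Subtype.val ((MonoidHom.ofInjective hf).apply_symm_apply x)
  rw [e, e]

/-- The subgroup form of the hypotheses implies the form for all injective homomorphisms. -/
theorem IsFundamental.of_subgroups
    (h1 : ∀ H : Subgroup Γ, IsZero (H1 (Rep.res H.subtype C)))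
    (gen : ∀ H : Subgroup Γ, ∀ x : H2 (Rep.res H.subtype C),
      ∃ c : k, x = c • H2π _ (resCocycle₂ C u H.subtype))
    (ord : ∀ H : Subgroup Γ, ∀ c : k, c • H2π _ (resCocycle₂ C u H.subtype) = 0 →
      ∃ c' : k, c = c' * (Nat.card H : k)) : IsFundamental C u where
  h1 K _ f hf := (h1 f.range).of_iso (rangeIso f hf 1)
  gen K _ f hf x := by
    obtain ⟨c, hc⟩ := gen f.range ((rangeIso (C := C) f hf 2).hom x)
    refine ⟨c, ?_⟩
    have hinj : Function.Injective (rangeIso (C := C) f hf 2).hom :=
      (ConcreteCategory.bijective_of_isIso (rangeIso (C := C) f hf 2).hom).1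
    apply hinj
    rw [hc, map_smul, rangeIso_hom_resCocycle₂]
  ord K _ f hf c hc := by
    have h2 : c • H2π _ (resCocycle₂ C u f.range.subtype) = 0 := by
      rw [← rangeIso_hom_resCocycle₂ f hf, ← map_smul, hc, map_zero]
    obtain ⟨c', hc'⟩ := ord f.range c h2
    refine ⟨c', ?_⟩
    rw [hc', Nat.card_congr (MonoidHom.ofInjective hf).toEquiv]

end Subgroups

end Fermat.Agent.S55lib.TateCoh
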