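/-
S55 sprint, block (I) (helper8): for a class module `C` with a fundamental cocycle over an arbitrary
finite group `Γ`, the `p`-primary part of `H³(Γ, C)` vanishes (Tate's theorem on a Sylow subgroup +
helper5's Sylow step).
-/
import Mathlib
import Fermat.Agent.S55lib.TateCoh.ClassModule
import Fermat.Agent.S55lib.Dev.SylowStep

set_option autoImplicit false
set_option linter.unusedSectionVars false
set_option linter.style.haveILetI false

namespace Fermat.Agent.S55lib.TateCoh

open groupCohomology CategoryTheory Limits

variable {k : Type} [CommRing k] {Γ : Type} [Group Γ] [Fintype Γ] {C : Rep.{0} k Γ}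
  {u : cocycles₂ C}

/-- **`H³(Γ, C)(p) = 0`** for a class module with fundamental cocycle. -/
theorem IsFundamental.eq_zero_of_pow_nsmul_eq_zero (h : IsFundamental C u)
    (htf : ∀ (n : ℕ) (a : k), n ≠ 0 → n • a = 0 → a = 0) (p : ℕ) [Fact p.Prime]
    (x : groupCohomology C 3) (m : ℕ) (hx : p ^ m • x = 0) : x = 0 := by
  classical
  obtain ⟨P⟩ : Nonempty (Sylow p Γ) := inferInstance
  letI : Fintype P.1 := Fintype.ofFinite _
  have hP : IsFundamental (Rep.res P.1.subtype C) (resCocycle₂ C u P.1.subtype) :=
    h.res P.1.subtype (Subgroup.subtype_injective _)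
  have hz : IsZero (groupCohomology (Rep.res P.1.subtype C) 3) :=
    hP.isZero_H3 htf (p := p) P.isPGroup'
  refine Dev.eq_zero_of_shapiroRes_eq_zero_of_pow_nsmul C p P 3 m x ?_ hx
  haveI := ModuleCat.subsingleton_of_isZero hz
  exact Subsingleton.elim _ _

end Fermat.Agent.S55lib.TateCoh
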