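/-
S55 sprint, block (I) (helper8): the augmentation module `I_Γ = ker(Σ : Fun(Γ, ℤ) → ℤ)` of a finite
group `Γ`, the short exact sequence `0 → I_Γ → Fun(Γ, ℤ) → ℤ → 0` and the low degree cohomology
of `I_Γ` on every group `K` mapping injectively to `Γ`:
`H¹(K, I_Γ)` is generated by the class `ε` of `k ↦ e_{k⁻¹} - e_1`, `|K| • ε = 0`, and
`H²(K, I_Γ) = 0`.
-/
import Mathlib
import Fermat.Agent.S55lib.TateCoh.CoindFun

set_option autoImplicit false
set_option linter.unusedSectionVars false
set_option linter.style.haveILetI false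

namespace Fermat.Agent.S55lib.TateCoh

open groupCohomology CategoryTheory Limits

variable {k : Type} [CommRing k] {Γ : Type} [Group Γ] [Fintype Γ]

/-- the sum map `Fun(Γ, ℤ) → ℤ` -/
def sumLinear (k : Type) [CommRing k] (Γ : Type) [Fintype Γ] : (Γ → k) →ₗ[k] k where
  toFun F := ∑ x, F x
  map_add' F F' := by simp [Finset.sum_add_distrib]
  map_smul' c F := by simp [Finset.mul_sum]

lemma sumLinear_apply (F : Γ → k) : sumLinear k Γ F = ∑ x, F x := rfl

lemma sumLinear_translate (g : Γ) (F : Γ → k) :
    sumLinear k Γ ((funRep k Γ k).ρ g F) = sumLinear k Γ F := by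
  rw [sumLinear_apply, sumLinear_apply]
  exact Fintype.sum_equiv (Equiv.mulRight g) _ _ (fun x => rfl)

/-- the sum map as a morphism of representations `Fun(Γ, ℤ) → ℤ` -/
noncomputable def sumHom (k : Type) [CommRing k] (Γ : Type) [Group Γ] [Fintype Γ] :
    funRep k Γ k ⟶ Rep.trivial k Γ k :=
  Rep.ofHom ⟨sumLinear k Γ, fun g => by
    apply LinearMap.ext
    intro F
    exact sumLinear_translate g F⟩

lemma sumHom_hom_apply (F : Γ → k) : (sumHom k Γ).hom F = ∑ x, F x := rfl

/-- the augmentation submodule -/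
def augSub (k : Type) [CommRing k] (Γ : Type) [Fintype Γ] : Submodule k (Γ → k) := LinearMap.ker (sumLinear k Γ)

lemma mem_augSub {F : Γ → k} : F ∈ augSub k Γ ↔ ∑ x, F x = 0 := LinearMap.mem_ker

lemma augSub_le_comap (g : Γ) : augSub k Γ ≤ (augSub k Γ).comap ((funRep k Γ k).ρ g) := by
  intro F hF
  rw [Submodule.mem_comap, augSub, LinearMap.mem_ker, sumLinear_translate]
  exact hF

/-- the augmentation module `I_Γ` -/
noncomputable abbrev augRep (k : Type) [CommRing k] (Γ : Type) [Group Γ] [Fintype Γ] : Rep.{0} k Γ :=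
  (funRep k Γ k).subrepresentation (augSub k Γ) augSub_le_comap

/-- the inclusion `I_Γ → Fun(Γ, ℤ)` -/
noncomputable def augIncl (k : Type) [CommRing k] (Γ : Type) [Group Γ] [Fintype Γ] : augRep k Γ ⟶ funRep k Γ k :=
  (funRep k Γ k).subtype (augSub k Γ) augSub_le_comap

lemma augIncl_hom_apply (x : augRep k Γ) : (augIncl k Γ).hom x = x.1 := rfl

lemma augRep_ρ_coe (g : Γ) (x : augRep k Γ) :
    ((augRep k Γ).ρ g x).1 = (funRep k Γ k).ρ g x.1 := rfl

lemma augIncl_injective : Function.Injective (augIncl k Γ).hom := fun _ _ h => Subtype.ext h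

lemma sumHom_surjective : Function.Surjective (sumHom k Γ).hom := by
  classical
  intro n
  refine ⟨Pi.single 1 n, ?_⟩
  show ∑ x, (Pi.single (1 : Γ) n : Γ → k) x = n
  rw [Finset.sum_pi_single']
  simp

lemma augIncl_comp_sumHom : augIncl k Γ ≫ sumHom k Γ = 0 := by
  apply Rep.hom_ext
  apply Representation.IntertwiningMap.ext
  apply LinearMap.ext
  intro x
  exact (x : augSub k Γ).2

/-- the augmentation sequence `0 → I_Γ → Fun(Γ, ℤ) → ℤ → 0` -/
noncomputable def augSeq (k : Type) [CommRing k] (Γ : Type) [Group Γ] [Fintype Γ] : ShortComplex (Rep.{0} k Γ) :=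
  ShortComplex.mk (augIncl k Γ) (sumHom k Γ) augIncl_comp_sumHom

lemma augSeq_shortExact : (augSeq k Γ).ShortExact where
  exact := by
    apply (forget₂ (Rep.{0} k Γ) (ModuleCat k)).reflects_exact_of_faithful
    rw [ShortComplex.moduleCat_exact_iff_range_eq_ker]
    apply le_antisymm
    · rintro _ ⟨x, rfl⟩
      exact (show augSub k Γ from x).2
    · intro F hF
      exact ⟨(⟨F, hF⟩ : augSub k Γ), rfl⟩
  mono_f := (Rep.mono_iff_injective _).2 augIncl_injective
  epi_g := (Rep.epi_iff_surjective _).2 sumHom_surjective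


/-! ### Cohomology of the augmentation module on groups mapping injectively to `Γ` -/

section Cohomology

variable {K : Type} [Group K] (f : K →* Γ)

/-- `H¹(K, A) = 0` for a finite group acting trivially on a torsion-free module. -/
lemma isZero_H1_of_isTrivial [Finite K] (A : Rep k K) [A.IsTrivial]
    (htf : ∀ (n : ℕ) (a : A), n ≠ 0 → n • a = 0 → a = 0) : IsZero (H1 A) := by
  haveI : Subsingleton (H1 A) := by
    refine ⟨fun x y => ?_⟩
    have h0 : ∀ x : H1 A, x = 0 := by
      intro x
      induction x using H1_induction_on with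
      | h z =>
        rw [H1π_eq_zero_iff]
        have hz : ∀ g : K, z g = 0 := by
          intro g
          have hpow : ∀ n : ℕ, z (g ^ n) = n • z g := by
            intro n
            induction n with
            | zero =>
              rw [pow_zero, zero_smul]
              have := cocycles₁_map_mul_of_isTrivial z 1 1
              rw [mul_one] at this
              have h2 : z 1 + 0 = z 1 + z 1 := by rw [add_zero]; exact this
              exact (add_left_cancel h2).symm
            | succ n ih =>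
              rw [pow_succ, cocycles₁_map_mul_of_isTrivial, ih, succ_nsmul]
          have h1 := hpow (Nat.card K)
          rw [pow_card_eq_one'] at h1
          have h3 : z 1 = 0 := by
            have := hpow 0
            rw [pow_zero, zero_smul] at this
            exact this
          rw [h3] at h1
          exact htf (Nat.card K) (z g) Nat.card_pos.ne' h1.symm
        have : (z : K → A) = 0 := funext hz
        rw [this]
        exact Submodule.zero_mem _
    rw [h0 x, h0 y]
  exact ModuleCat.isZero_of_subsingleton _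

/-- the augmentation sequence restricted along `f` -/
noncomputable abbrev augSeqRes : ShortComplex (Rep.{0} k K) :=
  (augSeq k Γ).map (Rep.resFunctor f)

lemma augSeqRes_shortExact : (augSeqRes (k := k) f).ShortExact :=
  (Rep.shortExact_res f).2 augSeq_shortExact

/-- `H²(K, I_Γ) = 0` when `k` is torsion-free. -/
lemma isZero_H2_augRep [Finite K] (hf : Function.Injective f)
    (htf : ∀ (n : ℕ) (a : k), n ≠ 0 → n • a = 0 → a = 0) :
    IsZero (H2 (Rep.res f (augRep k Γ))) := by
  have hS := augSeqRes_shortExact (k := k) f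
  have hex := mapShortComplex₁_exact hS (i := 1) (j := 2) rfl
  haveI : (Rep.res f (Rep.trivial k Γ k)).IsTrivial := ⟨fun g => rfl⟩
  have h1 : IsZero (H1 (Rep.res f (Rep.trivial k Γ k))) :=
    isZero_H1_of_isTrivial _ htf
  have h2 : IsZero (H2 (Rep.res f (funRep k Γ k))) :=
    (funRepResCoindTriv f k hf).isZero_groupCohomology_succ 1
  exact hex.isZero_of_both_isZero h1 h2

omit [Fintype Γ] in
lemma funRep_ρ_single [DecidableEq Γ] (g x : Γ) (c : k) :
    (funRep k Γ k).ρ g (Pi.single x c) = Pi.single (x * g⁻¹) c := by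
  funext y
  rw [funRep_ρ_apply, Pi.single_apply, Pi.single_apply]
  congr 1
  rw [eq_iff_iff, eq_mul_inv_iff_mul_eq]

lemma sum_single [DecidableEq Γ] (x : Γ) (c : k) : ∑ y, (Pi.single x c : Γ → k) y = c := by
  rw [Finset.sum_pi_single']
  simp

/-- the values of the fundamental `1`-cocycle of `I_Γ` -/
noncomputable def epsVal (k : Type) [CommRing k] {Γ : Type} [Group Γ] [Fintype Γ] (g : Γ) :
    augRep k Γ := by
  classical
  exact ⟨Pi.single g⁻¹ 1 - Pi.single 1 1, by
    rw [mem_augSub]
    simp only [Pi.sub_apply, Finset.sum_sub_distrib]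
    rw [sum_single, sum_single, sub_self]⟩

lemma epsVal_coe [DecidableEq Γ] (g : Γ) :
    (epsVal k g).1 = (Pi.single g⁻¹ 1 - Pi.single 1 1 : Γ → k) := by
  unfold epsVal
  congr!

lemma epsVal_mul (g h : Γ) : epsVal k (g * h) = (augRep k Γ).ρ g (epsVal k h) + epsVal k g := by
  classical
  apply Subtype.ext
  show (epsVal k (g * h)).1 = (funRep k Γ k).ρ g (epsVal k h).1 + (epsVal k g).1
  rw [epsVal_coe, epsVal_coe, epsVal_coe, map_sub, funRep_ρ_single, funRep_ρ_single, mul_inv_rev,
    one_mul]
  abel

/-- the fundamental `1`-cocycle `κ ↦ e_{f(κ)⁻¹} - e_1` of `I_Γ` on `K` -/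
noncomputable def epsCocycle : cocycles₁ (Rep.res f (augRep k Γ)) :=
  ⟨fun κ => epsVal k (f κ), by
    rw [mem_cocycles₁_iff]
    intro g h
    rw [map_mul]
    exact epsVal_mul (f g) (f h)⟩

lemma epsCocycle_apply (κ : K) : (epsCocycle (k := k) f) κ = epsVal k (f κ) := rfl

/-- Every class in `H¹(K, I_Γ)` is a multiple of the fundamental class. -/
lemma exists_eq_smul_epsCocycle (hf : Function.Injective f)
    (x : H1 (Rep.res f (augRep k Γ))) : ∃ c : k, x = c • H1π _ (epsCocycle f) := by
  classical
  induction x using H1_induction_on with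
  | h z =>
    -- `z` as a cocycle of `Fun(Γ, k)`
    have hz' : (fun κ => (z κ).1) ∈ cocycles₁ (Rep.res f (funRep k Γ k)) := by
      rw [mem_cocycles₁_iff]
      intro g h
      have := (mem_cocycles₁_iff (A := Rep.res f (augRep k Γ)) z).1 z.2 g h
      exact congrArg Subtype.val this
    have hzero : IsZero (H1 (Rep.res f (funRep k Γ k))) :=
      (funRepResCoindTriv f k hf).isZero_groupCohomology_succ 0
    have hsub := ModuleCat.subsingleton_of_isZero hzero
    have h0 : H1π (Rep.res f (funRep k Γ k)) ⟨_, hz'⟩ = 0 := Subsingleton.elim _ _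
    rw [H1π_eq_zero_iff] at h0
    obtain ⟨F, hF⟩ := h0
    have hF' : ∀ κ : K, (funRep k Γ k).ρ (f κ) F - F = (z κ).1 := fun κ => by
      have := congrFun hF κ
      rw [d₀₁_hom_apply] at this
      exact this
    set c : k := ∑ y, F y with hc
    refine ⟨c, ?_⟩
    have hG : F - c • (Pi.single 1 1 : Γ → k) ∈ augSub k Γ := by
      rw [mem_augSub]
      simp only [Pi.sub_apply, Pi.smul_apply, Finset.sum_sub_distrib, ← Finset.smul_sum]
      rw [sum_single, smul_eq_mul, mul_one, sub_self]
    rw [← map_smul, ← sub_eq_zero, ← map_sub, H1π_eq_zero_iff]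
    refine ⟨(⟨F - c • (Pi.single 1 1 : Γ → k), hG⟩ : augSub k Γ), ?_⟩
    funext κ
    rw [d₀₁_hom_apply]
    apply Subtype.ext
    show (funRep k Γ k).ρ (f κ) (F - c • (Pi.single 1 1 : Γ → k)) - (F - c • (Pi.single 1 1 : Γ → k))
      = (z κ).1 - c • (epsVal k (f κ)).1
    rw [epsVal_coe, map_sub, map_smul, funRep_ρ_single, one_mul, ← hF' κ, smul_sub]
    abel

/-- The fundamental class of `I_Γ` on `K` is killed by `|K|`. -/
lemma card_smul_epsCocycle [Fintype K] :
    (Fintype.card K : k) • H1π _ (epsCocycle (k := k) f) = 0 := by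
  classical
  -- the norm element `N = Σ_κ e_{f κ}`
  set N : Γ → k := ∑ κ : K, Pi.single (f κ) 1 with hN
  have hNinv : ∀ g : K, (funRep k Γ k).ρ (f g) N = N := by
    intro g
    rw [hN, map_sum]
    refine Fintype.sum_equiv (Equiv.mulRight g⁻¹) _ _ (fun κ => ?_)
    have := funRep_ρ_single (k := k) (f g) (f κ) (1 : k)
    rw [Equiv.coe_mulRight, map_mul, map_inv]
    exact this
  have hNsum : ∑ y, N y = (Fintype.card K : k) := by
    rw [hN]
    simp only [Finset.sum_apply]
    rw [Finset.sum_comm]
    simp only [sum_single]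
    simp
  have hG : (Fintype.card K : k) • (Pi.single 1 1 : Γ → k) - N ∈ augSub k Γ := by
    rw [mem_augSub]
    simp only [Pi.sub_apply, Pi.smul_apply, Finset.sum_sub_distrib, ← Finset.smul_sum]
    rw [sum_single, hNsum, smul_eq_mul, mul_one, sub_self]
  rw [← map_smul, H1π_eq_zero_iff]
  refine ⟨(⟨(Fintype.card K : k) • (Pi.single 1 1 : Γ → k) - N, hG⟩ : augSub k Γ), ?_⟩
  funext κ
  rw [d₀₁_hom_apply]
  apply Subtype.ext
  show (funRep k Γ k).ρ (f κ) ((Fintype.card K : k) • (Pi.single 1 1 : Γ → k) - N) -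
      ((Fintype.card K : k) • (Pi.single 1 1 : Γ → k) - N) = (Fintype.card K : k) • (epsVal k (f κ)).1
  rw [epsVal_coe, map_sub, map_smul, funRep_ρ_single, one_mul, hNinv, smul_sub]
  abel

end Cohomology

end Fermat.Agent.S55lib.TateCoh
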