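/-
S55 sprint, block (I) (helper8): Tate's splitting module.  For a finite group `Γ`, `C : Rep k Γ` and
a `2`-cocycle `u` of `C`, the module `X(u) = C × I_Γ` with the action
`σ (c, x) = (σ c + θ_σ x, σ x)`, `θ_σ x = Σ_ω x(ω) u(σ, ω⁻¹)`, sits in a short exact sequence
`0 → C → X(u) → I_Γ → 0` whose connecting map sends the fundamental class of `I_Γ` on any `K → Γ`
to the restriction of `[u]`.
-/
import Mathlib
import Fermat.Agent.S55lib.TateCoh.AugIdeal

set_option autoImplicit false
set_option linter.unusedSectionVars false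
set_option linter.style.haveILetI false

namespace Fermat.Agent.S55lib.TateCoh

open groupCohomology CategoryTheory Limits

variable {k : Type} [CommRing k] {Γ : Type} [Group Γ] [Fintype Γ] (C : Rep.{0} k Γ)
  (u : cocycles₂ C)

/-- `θ_σ x = Σ_ω x(ω) u(σ, ω⁻¹)` -/
def thetaLin (σ : Γ) : (Γ → k) →ₗ[k] C where
  toFun x := ∑ ω, x ω • u (σ, ω⁻¹)
  map_add' x y := by simp [add_smul, Finset.sum_add_distrib]
  map_smul' c x := by simp [mul_smul, Finset.smul_sum]

lemma thetaLin_apply (σ : Γ) (x : Γ → k) : thetaLin C u σ x = ∑ ω, x ω • u (σ, ω⁻¹) := rfl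

lemma thetaLin_single [DecidableEq Γ] (σ τ : Γ) (c : k) :
    thetaLin C u σ (Pi.single τ c) = c • u (σ, τ⁻¹) := by
  rw [thetaLin_apply]
  rw [Finset.sum_eq_single τ]
  · rw [Pi.single_eq_same]
  · intro ω _ hω
    rw [Pi.single_eq_of_ne hω, zero_smul]
  · intro h
    exact absurd (Finset.mem_univ τ) h

/-- the key identity making `X(u)` a representation -/
lemma thetaLin_mul (σ τ : Γ) (x : Γ → k) (hx : ∑ ω, x ω = 0) :
    C.ρ σ (thetaLin C u τ x) + thetaLin C u σ ((funRep k Γ k).ρ τ x) = thetaLin C u (σ * τ) x := by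
  have h1 : thetaLin C u σ ((funRep k Γ k).ρ τ x) = ∑ ω, x ω • u (σ, τ * ω⁻¹) := by
    rw [thetaLin_apply]
    refine Fintype.sum_equiv (Equiv.mulRight τ) _ _ (fun ω => ?_)
    rw [funRep_ρ_apply, Equiv.coe_mulRight, mul_inv_rev, mul_inv_cancel_left]
  rw [h1, thetaLin_apply, thetaLin_apply, map_sum, ← Finset.sum_add_distrib]
  have h2 : ∀ ω, C.ρ σ (x ω • u (τ, ω⁻¹)) + x ω • u (σ, τ * ω⁻¹) =
      x ω • u (σ * τ, ω⁻¹) + x ω • u (σ, τ) := by
    intro ω
    rw [map_smul, ← smul_add, ← smul_add]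
    congr 1
    exact ((mem_cocycles₂_iff (A := C) u).1 u.2 σ τ ω⁻¹).symm
  rw [Finset.sum_congr rfl (fun ω _ => h2 ω), Finset.sum_add_distrib, ← Finset.sum_smul, hx,
    zero_smul, add_zero]

lemma thetaLin_one (x : Γ → k) (hx : ∑ ω, x ω = 0) : thetaLin C u 1 x = 0 := by
  rw [thetaLin_apply]
  have : ∀ ω, x ω • u (1, ω⁻¹) = x ω • u (1, 1) := fun ω => by
    rw [cocycles₂_map_one_fst]
  rw [Finset.sum_congr rfl (fun ω _ => this ω), ← Finset.sum_smul, hx, zero_smul]

/-- the action of `σ` on the splitting module -/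
noncomputable def splitAct (σ : Γ) : (C × augSub k Γ) →ₗ[k] (C × augSub k Γ) :=
  ((C.ρ σ).comp (LinearMap.fst k C (augSub k Γ)) +
    ((thetaLin C u σ).comp (augSub k Γ).subtype).comp (LinearMap.snd k C (augSub k Γ))).prod
    (((augRep k Γ).ρ σ).comp (LinearMap.snd k C (augSub k Γ)))

lemma splitAct_apply (σ : Γ) (c : C) (x : augSub k Γ) :
    splitAct C u σ (c, x) = (C.ρ σ c + thetaLin C u σ x.1, (augRep k Γ).ρ σ x) := rfl

/-- the representation of `Γ` on the splitting module -/
noncomputable def splitRepresentation : Representation k Γ (C × augSub k Γ) where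
  toFun := splitAct C u
  map_one' := by
    apply LinearMap.ext
    rintro ⟨c, x⟩
    rw [splitAct_apply, thetaLin_one C u x.1 (mem_augSub.1 x.2), map_one, map_one]
    simp
  map_mul' σ τ := by
    apply LinearMap.ext
    rintro ⟨c, x⟩
    rw [Module.End.mul_apply, splitAct_apply, splitAct_apply, splitAct_apply]
    refine Prod.ext ?_ ?_
    · show C.ρ (σ * τ) c + thetaLin C u (σ * τ) x.1 =
        C.ρ σ (C.ρ τ c + thetaLin C u τ x.1) + thetaLin C u σ ((augRep k Γ).ρ τ x).1
      rw [← thetaLin_mul C u σ τ x.1 (mem_augSub.1 x.2), map_add, map_mul]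
      rw [augRep_ρ_coe, Module.End.mul_apply]
      abel
    · show (augRep k Γ).ρ (σ * τ) x = (augRep k Γ).ρ σ ((augRep k Γ).ρ τ x)
      rw [map_mul]
      rfl

/-- Tate's splitting module -/
noncomputable abbrev splitRep : Rep.{0} k Γ := Rep.of (splitRepresentation C u)

lemma splitRep_ρ_apply (σ : Γ) (c : C) (x : augSub k Γ) :
    (splitRep C u).ρ σ (c, x) = (C.ρ σ c + thetaLin C u σ x.1, (augRep k Γ).ρ σ x) := rfl

/-- the inclusion `C → X(u)` -/
noncomputable def splitIncl : C ⟶ splitRep C u :=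
  Rep.ofHom (ρ := C.ρ) (σ := splitRepresentation C u)
    ⟨LinearMap.inl k C (augSub k Γ), fun σ => by
      apply LinearMap.ext
      intro c
      show ((C.ρ σ c, (0 : augSub k Γ)) : C × augSub k Γ) = splitAct C u σ (c, 0)
      rw [splitAct_apply]
      simp⟩

/-- the projection `X(u) → I_Γ` -/
noncomputable def splitProj : splitRep C u ⟶ augRep k Γ :=
  Rep.ofHom (ρ := splitRepresentation C u) (σ := (augRep k Γ).ρ)
    ⟨LinearMap.snd k C (augSub k Γ), fun σ => by
      apply LinearMap.ext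
      rintro ⟨c, x⟩
      rfl⟩

lemma splitIncl_hom_apply (c : C) : (splitIncl C u).hom c = (c, 0) := rfl

lemma splitProj_hom_apply (y : splitRep C u) : (splitProj C u).hom y = y.2 := rfl

lemma splitIncl_comp_splitProj : splitIncl C u ≫ splitProj C u = 0 := by
  apply Rep.hom_ext
  apply Representation.IntertwiningMap.ext
  apply LinearMap.ext
  intro c
  rfl

/-- the sequence `0 → C → X(u) → I_Γ → 0` -/
noncomputable def splitSeq : ShortComplex (Rep.{0} k Γ) :=
  ShortComplex.mk (splitIncl C u) (splitProj C u) (splitIncl_comp_splitProj C u)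

lemma splitSeq_shortExact : (splitSeq C u).ShortExact where
  exact := by
    apply (forget₂ (Rep.{0} k Γ) (ModuleCat k)).reflects_exact_of_faithful
    rw [ShortComplex.moduleCat_exact_iff_range_eq_ker]
    apply le_antisymm
    · rintro _ ⟨c, rfl⟩
      rfl
    · rintro ⟨c, x⟩ hx
      have hx' : x = 0 := hx
      subst hx'
      exact ⟨c, rfl⟩
  mono_f := (Rep.mono_iff_injective _).2 (fun a b h => congrArg Prod.fst h)
  epi_g := (Rep.epi_iff_surjective _).2 (fun x => ⟨(0, x), rfl⟩)

/-! ### The connecting map on groups mapping to `Γ` -/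

section Restriction

variable {K : Type} [Group K] (f : K →* Γ)

/-- the restriction of the `2`-cocycle `u` along `f` -/
def resCocycle₂ : cocycles₂ (Rep.res f C) :=
  ⟨fun p => u (f p.1, f p.2), by
    rw [mem_cocycles₂_iff]
    intro g h j
    show u (f (g * h), f j) + u (f g, f h) = C.ρ (f g) (u (f h, f j)) + u (f g, f (h * j))
    rw [map_mul, map_mul]
    exact (mem_cocycles₂_iff (A := C) u).1 u.2 (f g) (f h) (f j)⟩

lemma resCocycle₂_apply (g h : K) : (resCocycle₂ C u f) (g, h) = u (f g, f h) := rfl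

/-- the splitting sequence restricted along `f` -/
noncomputable abbrev splitSeqRes : ShortComplex (Rep.{0} k K) :=
  (splitSeq C u).map (Rep.resFunctor f)

lemma splitSeqRes_shortExact : (splitSeqRes C u f).ShortExact :=
  (Rep.shortExact_res f).2 (splitSeq_shortExact C u)

lemma thetaLin_epsVal (σ τ : Γ) :
    thetaLin C u σ (epsVal k τ).1 = u (σ, τ) - C.ρ σ (u (1, 1)) := by
  classical
  rw [epsVal_coe, map_sub, thetaLin_single, thetaLin_single, one_smul, one_smul, inv_inv, inv_one,
    cocycles₂_map_one_snd]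

/-- The connecting map of the splitting sequence sends the fundamental class of `I_Γ` to the
restriction of `[u]`. -/
theorem δ_epsCocycle :
    δ (splitSeqRes_shortExact C u f) 1 2 rfl (H1π _ (epsCocycle (k := k) f)) =
      H2π _ (resCocycle₂ C u f) := by
  have hx : (splitSeqRes C u f).f.hom ∘ (resCocycle₂ C u f : K × K → C) =
      d₁₂ (splitSeqRes C u f).X₂
        (fun κ => ((u (1, 1), epsVal k (f κ)) : C × augSub k Γ)) := by
    funext ⟨κ, l⟩
    refine Eq.trans ?_ (d₁₂_hom_apply (A := (splitSeqRes C u f).X₂) _ (κ, l)).symm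
    show ((u (f κ, f l), (0 : augSub k Γ)) : C × augSub k Γ) =
      (splitRep C u).ρ (f κ) (u (1, 1), epsVal k (f l)) - (u (1, 1), epsVal k (f (κ * l)))
        + (u (1, 1), epsVal k (f κ))
    rw [splitRep_ρ_apply, thetaLin_epsVal, map_mul, epsVal_mul]
    refine Prod.ext ?_ ?_
    · show u (f κ, f l) = C.ρ (f κ) (u (1, 1)) + (u (f κ, f l) - C.ρ (f κ) (u (1, 1))) - u (1, 1)
        + u (1, 1)
      abel
    · show (0 : augSub k Γ) = (augRep k Γ).ρ (f κ) (epsVal k (f l)) -
        ((augRep k Γ).ρ (f κ) (epsVal k (f l)) + epsVal k (f κ)) + epsVal k (f κ)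
      abel
  have := δ₁_apply (splitSeqRes_shortExact C u f) (epsCocycle (k := k) f)
    (fun κ => ((u (1, 1), epsVal k (f κ)) : C × augSub k Γ)) rfl
    (resCocycle₂ C u f : K × K → C) hx
  exact this

end Restriction

end Fermat.Agent.S55lib.TateCoh
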